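import Fermat.Agent.NymanBeurling.Kernel
import Fermat.Agent.Halasz.Plancherel
import Mathlib.Analysis.SpecialFunctions.ImproperIntegrals
import Mathlib.MeasureTheory.Integral.ExpDecay

/-!
# The functions on the line and their transforms

`x = exp (-u)` carries `L² (0, ∞)` onto `L² (ℝ)` by `F ↦ exp (-u/2) F (exp (-u))`, and the Fourier
transform of the image at `ξ` is the Mellin transform of `F` at `1/2 + 2 π i ξ`.
-/

set_option autoImplicit false

noncomputable section

open MeasureTheory Filter Set Complex FourierTransform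
open scoped Real

namespace FA.NymanBeurling

/-- The point `1/2 + 2 π i ξ`. -/
def line (ξ : ℝ) : ℂ := 1 / 2 + ((2 * π * ξ : ℝ) : ℂ) * I

/-- The image of `F` on the line. -/
def pull (F : ℝ → ℝ) (u : ℝ) : ℂ :=
  Real.exp (-(1 / 2) * u) • ((F (Real.exp (-u)) : ℝ) : ℂ)

/-- `|F| ≤ 1`, and `|F x| ≤ 1/x` for `x > 1`. -/
structure Tame (F : ℝ → ℝ) : Prop where
  meas : Measurable F
  le_one : ∀ x, |F x| ≤ 1
  le_inv : ∀ x, 1 < x → |F x| ≤ 1 / x

theorem tame_chi : Tame chi :=
  ⟨measurable_chi, abs_chi_le, fun x hx => by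
    rw [chi, indicator_of_notMem fun h => not_lt.2 h.2 hx, abs_zero]
    exact div_nonneg zero_le_one (by linarith)⟩

theorem tame_frk {θ : ℝ} (h0 : 0 ≤ θ) (h1 : θ ≤ 1) : Tame (frk θ) :=
  ⟨measurable_frk θ, abs_frk_le θ, fun x hx => by
    have hx0 : 0 < x := by linarith
    rw [frk_of_lt h0 (h1.trans_lt hx), abs_of_nonneg (div_nonneg h0 hx0.le)]
    gcongr⟩

theorem line_re (ξ : ℝ) : (line ξ).re = 1 / 2 := by simp [line]

theorem line_im (ξ : ℝ) : (line ξ).im = 2 * π * ξ := by simp [line]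

theorem line_ne_zero (ξ : ℝ) : line ξ ≠ 0 := fun h => by
  have := congrArg Complex.re h
  rw [line_re, Complex.zero_re] at this
  norm_num at this

theorem line_ne_one (ξ : ℝ) : line ξ ≠ 1 := fun h => by
  have := congrArg Complex.re h
  rw [line_re, Complex.one_re] at this
  norm_num at this

theorem continuous_line : Continuous line := by unfold line; fun_prop

theorem norm_pull_le {F : ℝ → ℝ} (hF : Tame F) (u : ℝ) :
    ‖pull F u‖ ≤ Real.exp (-(1 / 2 * |u|)) := by
  rw [pull, norm_smul, Complex.norm_real, Real.norm_of_nonneg (Real.exp_pos _).le,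
    Real.norm_eq_abs]
  rcases le_or_gt 0 u with hu | hu
  · rw [abs_of_nonneg hu]
    refine (mul_le_of_le_one_right (Real.exp_pos _).le (hF.le_one _)).trans (le_of_eq ?_)
    ring_nf
  · rw [abs_of_neg hu]
    refine (mul_le_mul_of_nonneg_left (hF.le_inv _ (Real.one_lt_exp_iff.2 (by linarith)))
      (Real.exp_pos _).le).trans (le_of_eq ?_)
    rw [one_div (Real.exp (-u)), ← Real.exp_neg, ← Real.exp_add]
    ring_nf

theorem measurable_pull {F : ℝ → ℝ} (hF : Tame F) : Measurable (pull F) := by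
  have := hF.meas
  unfold pull
  fun_prop

theorem integrable_exp_neg_abs {c : ℝ} (hc : 0 < c) :
    Integrable fun u : ℝ => Real.exp (-(c * |u|)) := by
  rw [← integrableOn_univ, ← Iic_union_Ioi (a := (0 : ℝ)), integrableOn_union]
  constructor
  · refine (integrableOn_exp_mul_Iic hc 0).congr_fun (fun u hu => ?_) measurableSet_Iic
    rw [abs_of_nonpos (Set.mem_Iic.1 hu)]
    ring_nf
  · refine (exp_neg_integrableOn_Ioi 0 hc).congr_fun (fun u hu => ?_) measurableSet_Ioi
    simp only [abs_of_pos (Set.mem_Ioi.1 hu), neg_mul]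

theorem integrable_pull {F : ℝ → ℝ} (hF : Tame F) : Integrable (pull F) :=
  (integrable_exp_neg_abs (by norm_num : (0 : ℝ) < 1 / 2)).mono'
    (measurable_pull hF).aestronglyMeasurable (Eventually.of_forall (norm_pull_le hF))

theorem memLp_pull {F : ℝ → ℝ} (hF : Tame F) : MemLp (pull F) 2 := by
  rw [memLp_two_iff_integrable_sq_norm (measurable_pull hF).aestronglyMeasurable]
  refine (integrable_exp_neg_abs one_pos).mono'
    ((measurable_pull hF).norm.pow_const 2).aestronglyMeasurable (Eventually.of_forall fun u => ?_)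
  rw [Real.norm_of_nonneg (sq_nonneg _)]
  refine (pow_le_pow_left₀ (norm_nonneg _) (norm_pull_le hF u) 2).trans (le_of_eq ?_)
  rw [← Real.exp_nat_mul]
  ring_nf

/-- The transform of the image in `L²`. -/
def trans (F : ℝ → ℝ) (hF : Tame F) : Lp ℂ 2 (volume : Measure ℝ) :=
  𝓕 ((memLp_pull hF).toLp (pull F))

theorem trans_ae {F : ℝ → ℝ} (hF : Tame F) :
    ∀ᵐ ξ : ℝ, (trans F hF : ℝ → ℂ) ξ = mellin (fun t => (F t : ℂ)) (line ξ) := by
  filter_upwards [FA.Halasz.fourier_toLp_ae_eq (integrable_pull hF) (memLp_pull hF)] with ξ hξ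
  rw [trans, hξ, mellin_eq_fourier]
  rw [line_im, line_re, mul_div_cancel_left₀ _ (by positivity : (2 * π : ℝ) ≠ 0)]
  rfl

theorem trans_chi : ∀ᵐ ξ : ℝ, (trans chi tame_chi : ℝ → ℂ) ξ = 1 / line ξ := by
  filter_upwards [trans_ae tame_chi] with ξ hξ
  rw [hξ, ← (hasMellin_one_Ioc (s := line ξ) (by rw [line_re]; norm_num)).2]
  congr 1
  funext t
  by_cases ht : t ∈ Ioc (0 : ℝ) 1 <;> simp [chi, ht]

theorem trans_frk {θ : ℝ} (h0 : 0 < θ) (h1 : θ ≤ 1) :
    ∀ᵐ ξ : ℝ, (trans (frk θ) (tame_frk h0.le h1) : ℝ → ℂ) ξ =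
      -(θ : ℂ) ^ line ξ * riemannZeta (line ξ) / line ξ := by
  filter_upwards [trans_ae (tame_frk h0.le h1)] with ξ hξ
  rw [hξ, mellin_frk h0 (by rw [line_re]; norm_num) (by rw [line_re]; norm_num)]

theorem integral_Ioi_eq_line (f : ℝ → ℝ) :
    ∫ x in Ioi (0 : ℝ), f x = ∫ u : ℝ, Real.exp (-u) * f (Real.exp (-u)) := by
  have him : (fun u : ℝ => Real.exp (-u)) '' univ = Ioi 0 := by
    rw [image_univ]
    exact (neg_surjective.range_comp Real.exp).trans Real.range_exp
  rw [← him, integral_image_eq_integral_abs_deriv_smul MeasurableSet.univ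
    (f' := fun u => Real.exp (-u) * -1)
    (fun u _ => ((hasDerivAt_neg u).exp).hasDerivWithinAt)
    (fun a _ b _ h => neg_injective (Real.exp_injective h))]
  simp [abs_of_pos (Real.exp_pos _)]

/-- A combination in `L²` of transforms bounds the error integral. -/
theorem integral_err_sq_le {ι : Type*} (S : Finset ι) (θ : ι → ℝ)
    (hθ : ∀ i, 0 ≤ θ i ∧ θ i ≤ 1) (c : ι → ℂ) :
    ∫ x in Ioi (0 : ℝ), err S θ (fun i => (c i).re) x ^ 2 ≤
      ‖trans chi tame_chi - ∑ i ∈ S, c i • trans (frk (θ i)) (tame_frk (hθ i).1 (hθ i).2)‖ ^ 2 := by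
  set v : Lp ℂ 2 (volume : Measure ℝ) := (memLp_pull tame_chi).toLp (pull chi) -
    ∑ i ∈ S, c i • (memLp_pull (tame_frk (hθ i).1 (hθ i).2)).toLp (pull (frk (θ i))) with hv
  have hF : trans chi tame_chi - ∑ i ∈ S, c i • trans (frk (θ i)) (tame_frk (hθ i).1 (hθ i).2) =
      Lp.fourierTransformₗᵢ ℝ ℂ v := by
    rw [hv, map_sub, map_sum]
    simp only [map_smul]
    rfl
  rw [hF, LinearIsometryEquiv.norm_map]
  have hn : ‖v‖ ^ 2 = ∫ u, ‖(v : ℝ → ℂ) u‖ ^ 2 := by
    rw [← @inner_self_eq_norm_sq ℂ, L2.inner_def, ← integral_re (L2.integrable_inner v v)]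
    refine integral_congr_ae (Eventually.of_forall fun u => ?_)
    exact inner_self_eq_norm_sq _
  rw [hn, integral_Ioi_eq_line]
  have hae : ∀ᵐ u : ℝ, (v : ℝ → ℂ) u = pull chi u - ∑ i ∈ S, c i * pull (frk (θ i)) u := by
    have h3 := Lp.coeFn_finsetSum S fun i =>
      c i • (memLp_pull (tame_frk (hθ i).1 (hθ i).2)).toLp (pull (frk (θ i)))
    have h4 : ∀ᵐ u : ℝ, ∀ i ∈ S, ((c i • (memLp_pull (tame_frk (hθ i).1 (hθ i).2)).toLp
        (pull (frk (θ i))) : Lp ℂ 2 (volume : Measure ℝ)) : ℝ → ℂ) u =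
          c i * pull (frk (θ i)) u := by
      refine (eventually_all_finset S).2 fun i _ => ?_
      filter_upwards [Lp.coeFn_smul (c i) ((memLp_pull (tame_frk (hθ i).1 (hθ i).2)).toLp
          (pull (frk (θ i)))), (memLp_pull (tame_frk (hθ i).1 (hθ i).2)).coeFn_toLp] with u h1 h2
      rw [h1, Pi.smul_apply, h2, smul_eq_mul]
    filter_upwards [Lp.coeFn_sub ((memLp_pull tame_chi).toLp (pull chi))
      (∑ i ∈ S, c i • (memLp_pull (tame_frk (hθ i).1 (hθ i).2)).toLp (pull (frk (θ i)))),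
      (memLp_pull tame_chi).coeFn_toLp, h3, h4] with u h1 h2 h3 h4
    rw [hv, h1, Pi.sub_apply, h2, h3, Finset.sum_apply, Finset.sum_congr rfl h4]
  refine integral_mono_of_nonneg (Eventually.of_forall fun u =>
    mul_nonneg (Real.exp_pos _).le (sq_nonneg _))
    ((memLp_two_iff_integrable_sq_norm (Lp.aestronglyMeasurable v)).1 (Lp.memLp v)) ?_
  filter_upwards [hae] with u hu
  have hre : (v : ℝ → ℂ) u = (Real.exp (-(1 / 2) * u) : ℂ) *
      ((chi (Real.exp (-u)) : ℂ) - ∑ i ∈ S, c i * (frk (θ i) (Real.exp (-u)) : ℂ)) := by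
    rw [hu, mul_sub, Finset.mul_sum]
    simp only [pull, Complex.real_smul]
    congr 1
    exact Finset.sum_congr rfl fun i _ => by ring
  simp only [hre, norm_mul, mul_pow, Complex.norm_real, Real.norm_eq_abs, sq_abs]
  rw [← Real.exp_nat_mul, show ((2 : ℕ) : ℝ) * (-(1 / 2) * u) = -u by push_cast; ring]
  refine mul_le_mul_of_nonneg_left ?_ (Real.exp_pos _).le
  rw [← sq_abs (err _ _ _ _)]
  refine pow_le_pow_left₀ (abs_nonneg _) (le_of_eq_of_le ?_ (Complex.abs_re_le_norm _)) 2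
  simp [err, Complex.re_sum]

end FA.NymanBeurling

end
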