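import Fermat.Agent.NymanBeurling.Growth
import Fermat.Agent.NymanBeurling.Line
import Fermat.Agent.VonKoch.Main
import Mathlib.Analysis.SpecialFunctions.JapaneseBracket
import Mathlib.Analysis.InnerProductSpace.Projection.Submodule

/-!
# The Riemann hypothesis gives the approximation

For `h` orthogonal to every transform `-n ^ (-s) ζ s / s`, the function
`φ z = ∫ conj h · ζ s / (s ζ (s + z))` vanishes for `re z > 1/2` (expand `1/ζ`), so for `re z > 0`
by continuation; `z → 0` gives orthogonality to `1/s`, the transform of the indicator.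
-/

set_option autoImplicit false

noncomputable section

open MeasureTheory Filter Set Complex Topology
open scoped Real ComplexConjugate InnerProductSpace ArithmeticFunction.Moebius
open FA.VonKoch (weight invZeta)

namespace FA.NymanBeurling

/-- The majorant. -/
def major (ξ : ℝ) : ℝ := (1 + (2 * π * ξ) ^ 2) ^ (-(5 / 16) : ℝ)

theorem major_pos (ξ : ℝ) : 0 < major ξ := Real.rpow_pos_of_pos (by positivity) _

theorem continuous_major : Continuous major :=
  Continuous.rpow_const (by fun_prop) fun ξ => Or.inl (by positivity)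

theorem memLp_major : MemLp major 2 := by
  rw [memLp_two_iff_integrable_sq continuous_major.aestronglyMeasurable]
  have h0 : Integrable fun x : ℝ => (1 + ‖x‖ ^ 2) ^ (-(5 / 4 : ℝ) / 2) :=
    integrable_rpow_neg_one_add_norm_sq (by norm_num)
  have h := h0.comp_mul_left' (by positivity : (2 * π : ℝ) ≠ 0)
  refine h.congr (Eventually.of_forall fun ξ => ?_)
  simp only [major, Real.norm_eq_abs, sq_abs]
  rw [← Real.rpow_mul_natCast (by positivity)]
  norm_num

theorem rpow_div_line_le {a : ℝ} (ha : a ≤ 3 / 16) (ξ : ℝ) :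
    (1 + (2 * π * ξ) ^ 2) ^ a / ‖line ξ‖ ≤ 2 * major ξ := by
  obtain ⟨X, hX⟩ : ∃ X, X = 1 + (2 * π * ξ) ^ 2 := ⟨_, rfl⟩
  have hX1 : 1 ≤ X := by rw [hX]; nlinarith [sq_nonneg (2 * π * ξ)]
  have hl : X ^ (1 / 2 : ℝ) / 2 ≤ ‖line ξ‖ := by
    rw [← Real.sqrt_eq_rpow, Complex.norm_def, div_le_iff₀ two_pos]
    calc √X ≤ √((2 : ℝ) ^ 2 * normSq (line ξ)) := by
          refine Real.sqrt_le_sqrt ?_
          rw [normSq_apply, line_re, line_im, hX]
          nlinarith [sq_nonneg (2 * π * ξ)]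
      _ = _ := by rw [Real.sqrt_mul (by positivity), Real.sqrt_sq two_pos.le, mul_comm]
  rw [← hX, major, ← hX, div_le_iff₀ (norm_pos_iff.2 (line_ne_zero ξ))]
  calc X ^ a ≤ X ^ (-(5 / 16) + 1 / 2 : ℝ) :=
        Real.rpow_le_rpow_of_exponent_le hX1 (by linarith)
    _ = 2 * X ^ (-(5 / 16) : ℝ) * (X ^ (1 / 2 : ℝ) / 2) := by
        rw [Real.rpow_add (by linarith)]; ring
    _ ≤ _ := mul_le_mul_of_nonneg_left hl (by positivity)

theorem rpow_abs_add_le (t : ℝ) {p : ℝ} (hp : 0 ≤ p) :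
    (|t| + 100) ^ p ≤ 101 ^ p * (1 + t ^ 2) ^ (p / 2) := by
  rw [show p / 2 = 1 / 2 * p by ring, Real.rpow_mul (by positivity), ← Real.sqrt_eq_rpow,
    ← Real.mul_rpow (by norm_num) (Real.sqrt_nonneg _)]
  refine Real.rpow_le_rpow (by positivity) ?_ hp
  have h4 : |t| ≤ √(1 + t ^ 2) := Real.abs_le_sqrt (by linarith)
  have h5 : 1 ≤ √(1 + t ^ 2) := Real.one_le_sqrt.2 (by nlinarith [sq_nonneg t])
  linarith

theorem exp_mul_log_le (t : ℝ) {ε : ℝ} (h1 : ε ≤ 1 / 16) :
    Real.exp (ε * (12 + 2 * Real.log (|t| + 100))) ≤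
      Real.exp 1 * 101 * (1 + t ^ 2) ^ (1 / 16 : ℝ) := by
  have hl : 0 ≤ Real.log (|t| + 100) := Real.log_nonneg (by linarith [abs_nonneg t])
  calc Real.exp (ε * (12 + 2 * Real.log (|t| + 100)))
      ≤ Real.exp (1 + Real.log (|t| + 100) * (1 / 8)) :=
        Real.exp_le_exp.2 (by nlinarith)
    _ = Real.exp 1 * (|t| + 100) ^ (1 / 8 : ℝ) := by
        rw [Real.exp_add, Real.rpow_def_of_pos (by positivity)]
    _ ≤ Real.exp 1 * (101 * (1 + t ^ 2) ^ (1 / 16 : ℝ)) := by
        refine mul_le_mul_of_nonneg_left ((rpow_abs_add_le t (by norm_num)).trans ?_)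
          (by positivity)
        rw [show (1 / 8 : ℝ) / 2 = 1 / 16 by norm_num]
        refine mul_le_mul_of_nonneg_right ?_ (by positivity)
        exact Real.rpow_le_self_of_one_le (by norm_num) (by norm_num)
    _ = _ := by ring

theorem weight_eq_rpow (η t : ℝ) : weight η t = (1 + t ^ 2) ^ (η / 2) := rfl

/-- `ζ` on the line. -/
theorem exists_zeta_line (h : RiemannHypothesis) : ∃ C, 0 ≤ C ∧ ∀ ξ : ℝ,
    ‖riemannZeta (line ξ)‖ ≤ C * (1 + (2 * π * ξ) ^ 2) ^ (1 / 8 : ℝ) := by
  obtain ⟨C, hC, hb⟩ := FA.VonKoch.exists_growth (σ₁ := 9 / 16) (le_refl (1 / 2 : ℝ))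
    (by norm_num) (by norm_num) (fun s hs => zeta₁_ne_zero h hs) (η := 1 / 8) (by norm_num)
  obtain ⟨M, hM⟩ := (isCompact_Icc (a := (-3 : ℝ)) (b := 3)).exists_bound_of_continuousOn
    (f := fun t : ℝ => riemannZeta (1 / 2 + t * I)) fun t _ => by
      refine ((differentiableAt_riemannZeta fun h' => ?_).continuousAt.comp
        (by fun_prop)).continuousWithinAt
      have := congrArg Complex.re h'
      norm_num at this
  refine ⟨|M| + Real.exp 1 * 101 * C, by positivity, fun ξ => ?_⟩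
  obtain ⟨t, ht⟩ : ∃ t, t = 2 * π * ξ := ⟨_, rfl⟩
  rw [line, ← ht]
  have hw : 1 ≤ (1 + t ^ 2) ^ (1 / 8 : ℝ) :=
    Real.one_le_rpow (by nlinarith [sq_nonneg t]) (by norm_num)
  rcases le_total |t| 3 with h3 | h3
  · refine ((hM t (abs_le.1 h3)).trans (le_abs_self M)).trans ?_
    calc |M| = |M| * 1 := (mul_one _).symm
      _ ≤ _ := mul_le_mul (le_add_of_nonneg_right (by positivity)) hw zero_le_one (by positivity)
  · refine (zeta_half_le h t (by norm_num : (0 : ℝ) ≤ 1 / 16) (by norm_num)).trans ?_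
    obtain ⟨h1, -, -⟩ := hb ((1 / 2 + 1 / 16 : ℝ) + t * I) (by simp; norm_num) (by simp; norm_num)
    have him : (((1 / 2 + 1 / 16 : ℝ) : ℂ) + t * I).im = t := by simp
    rw [him, weight_eq_rpow] at h1
    refine (mul_le_mul (exp_mul_log_le t le_rfl) (h1 h3) (norm_nonneg _)
      (by positivity)).trans ?_
    rw [show (1 / 8 : ℝ) / 2 = 1 / 16 by norm_num,
      show (1 / 8 : ℝ) = 1 / 16 + 1 / 16 by norm_num, Real.rpow_add (by positivity)]
    nlinarith [mul_nonneg (abs_nonneg M) (mul_nonneg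
      (Real.rpow_nonneg (by positivity : (0 : ℝ) ≤ 1 + t ^ 2) (1 / 16))
      (Real.rpow_nonneg (by positivity : (0 : ℝ) ≤ 1 + t ^ 2) (1 / 16)))]

/-- The strip of the continuation. -/
def strip : Set ℂ := {z : ℂ | 0 < z.re ∧ z.re < 1}

theorem isOpen_strip : IsOpen strip :=
  (isOpen_lt continuous_const continuous_re).inter (isOpen_lt continuous_re continuous_const)

theorem continuous_invZeta_line (h : RiemannHypothesis) {z : ℂ} (hz : 0 < z.re) :
    Continuous fun ξ => invZeta (line ξ + z) :=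
  continuous_iff_continuousAt.2 fun ξ => ContinuousAt.comp' (FA.VonKoch.differentiableAt_invZeta
    (zeta₁_ne_zero h (by rw [add_re, line_re]; linarith))).continuousAt
    (continuous_line.add continuous_const).continuousAt

theorem continuous_zeta_div : Continuous fun ξ => riemannZeta (line ξ) / line ξ :=
  continuous_iff_continuousAt.2 fun ξ =>
    (((differentiableAt_riemannZeta (line_ne_one ξ)).continuousAt.comp
      continuous_line.continuousAt).div continuous_line.continuousAt (line_ne_zero ξ))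

theorem exists_integrand_bound (h : RiemannHypothesis) {δ M : ℝ} (hδ : 0 < δ) :
    ∃ C, 0 ≤ C ∧ ∀ z : ℂ, δ ≤ z.re → z.re ≤ 3 / 2 → |z.im| ≤ M → ∀ ξ,
      ‖riemannZeta (line ξ) / line ξ * invZeta (line ξ + z)‖ ≤ C * major ξ := by
  obtain ⟨Z, hZ, hZb⟩ := exists_zeta_line h
  obtain ⟨C, hC, hb⟩ := FA.VonKoch.exists_growth (σ₁ := min (1 / 2 + δ) 1) (le_refl (1 / 2 : ℝ))
    (lt_min (by linarith) (by norm_num)) (min_le_right _ _) (fun s hs => zeta₁_ne_zero h hs)
    (η := 1 / 8) (by norm_num)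
  refine ⟨2 * (Z * (C * (2 * (1 + M ^ 2)) ^ (1 / 16 : ℝ))), by positivity,
    fun z hz hz2 hM ξ => ?_⟩
  obtain ⟨-, -, h3⟩ := hb (line ξ + z) ((min_le_left _ _).trans (by rw [add_re, line_re]; linarith))
    (by rw [add_re, line_re]; linarith)
  obtain ⟨t, ht⟩ : ∃ t, t = 2 * π * ξ := ⟨_, rfl⟩
  rw [add_im, line_im, ← ht, weight_eq_rpow, show (1 / 8 : ℝ) / 2 = 1 / 16 by norm_num] at h3
  have hsq : 1 + (t + z.im) ^ 2 ≤ 2 * (1 + M ^ 2) * (1 + t ^ 2) := by
    have hm2 : z.im ^ 2 ≤ M ^ 2 := by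
      rw [← sq_abs z.im]; exact pow_le_pow_left₀ (abs_nonneg _) hM 2
    nlinarith [sq_nonneg (t - z.im), mul_nonneg (sq_nonneg M) (sq_nonneg t), sq_nonneg t]
  have h4 : ‖invZeta (line ξ + z)‖ ≤
      C * (2 * (1 + M ^ 2)) ^ (1 / 16 : ℝ) * (1 + t ^ 2) ^ (1 / 16 : ℝ) := by
    refine h3.trans ?_
    rw [mul_assoc, ← Real.mul_rpow (by positivity) (by positivity)]
    exact mul_le_mul_of_nonneg_left (Real.rpow_le_rpow (by positivity) hsq (by norm_num)) hC
  have h5 := hZb ξ
  rw [← ht] at h5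
  rw [norm_mul, norm_div]
  calc ‖riemannZeta (line ξ)‖ / ‖line ξ‖ * ‖invZeta (line ξ + z)‖
      ≤ Z * (1 + t ^ 2) ^ (1 / 8 : ℝ) / ‖line ξ‖ *
          (C * (2 * (1 + M ^ 2)) ^ (1 / 16 : ℝ) * (1 + t ^ 2) ^ (1 / 16 : ℝ)) :=
        mul_le_mul (div_le_div_of_nonneg_right h5 (norm_nonneg _)) h4 (norm_nonneg _)
          (by positivity)
    _ = Z * (C * (2 * (1 + M ^ 2)) ^ (1 / 16 : ℝ)) *
          ((1 + (2 * π * ξ) ^ 2) ^ (3 / 16 : ℝ) / ‖line ξ‖) := by
        rw [← ht, show (3 / 16 : ℝ) = 1 / 8 + 1 / 16 by norm_num, Real.rpow_add (by positivity)]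
        ring
    _ ≤ _ := by
        refine (mul_le_mul_of_nonneg_left (rpow_div_line_le le_rfl ξ) (by positivity)).trans
          (le_of_eq ?_)
        ring

/-- `ζ s / s · 1 / ζ (s + z)` paired with `h`. -/
def phi (hf : ℝ → ℂ) (z : ℂ) : ℂ :=
  ∫ ξ, conj (hf ξ) * (riemannZeta (line ξ) / line ξ * invZeta (line ξ + z))

theorem differentiableAt_phi (h : RiemannHypothesis) {hf : ℝ → ℂ} (hm : MemLp hf 2) {z₀ : ℂ}
    (hz : z₀ ∈ strip) : DifferentiableAt ℂ (phi hf) z₀ := by
  obtain ⟨r, hr⟩ : ∃ r, r = z₀.re / 4 := ⟨_, rfl⟩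
  have hr0 : 0 < r := by rw [hr]; linarith [hz.1]
  have hnear : ∀ z ∈ Metric.closedBall z₀ (2 * r),
      2 * r ≤ z.re ∧ z.re ≤ 3 / 2 ∧ |z.im| ≤ |z₀.im| + 2 * r := fun z hzb => by
    rw [Metric.mem_closedBall, dist_eq_norm] at hzb
    have h1 := (abs_re_le_norm (z - z₀)).trans hzb
    have h2 := (abs_im_le_norm (z - z₀)).trans hzb
    rw [sub_re] at h1
    rw [sub_im] at h2
    have := abs_sub_abs_le_abs_sub z.im z₀.im
    rw [abs_le] at h1
    exact ⟨by linarith [h1.1], by linarith [h1.2, hz.2], by linarith⟩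
  obtain ⟨C, hC, hCb⟩ := exists_integrand_bound h (δ := 2 * r) (M := |z₀.im| + 2 * r) (by linarith)
  have hint : Integrable fun ξ => ‖hf ξ‖ * major ξ := hm.norm.integrable_mul memLp_major
  have hdiff : ∀ ξ, ∀ z : ℂ, 0 < z.re →
      DifferentiableAt ℂ (fun z => riemannZeta (line ξ) / line ξ * invZeta (line ξ + z)) z :=
    fun ξ z hz' => ((FA.VonKoch.differentiableAt_invZeta
      (zeta₁_ne_zero h (by simp only [id, add_re, line_re]; linarith))).comp z
        (differentiableAt_id.const_add _)).const_mul _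
  have hmeas : ∀ z : ℂ, 0 < z.re → AEStronglyMeasurable
      (fun ξ => conj (hf ξ) * (riemannZeta (line ξ) / line ξ * invZeta (line ξ + z))) volume :=
    fun z hz' => (Complex.continuous_conj.comp_aestronglyMeasurable hm.1).mul
      ((continuous_zeta_div.mul (continuous_invZeta_line h hz')).aestronglyMeasurable)
  obtain ⟨F', hF'⟩ : ∃ F' : ℂ → ℝ → ℂ, F' = fun z ξ => conj (hf ξ) *
      deriv (fun z => riemannZeta (line ξ) / line ξ * invZeta (line ξ + z)) z := ⟨_, rfl⟩
  have hball : Metric.ball z₀ r ⊆ Metric.closedBall z₀ (2 * r) :=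
    Metric.ball_subset_closedBall.trans (Metric.closedBall_subset_closedBall (by linarith))
  refine (hasDerivAt_integral_of_dominated_loc_of_deriv_le
    (F := fun z ξ => conj (hf ξ) * (riemannZeta (line ξ) / line ξ * invZeta (line ξ + z)))
    (bound := fun ξ => ‖hf ξ‖ * (C * major ξ / r)) (F' := F') (Metric.ball_mem_nhds z₀ hr0)
    ?_ ?_ ?_ ?_ ?_ ?_).2.differentiableAt
  · filter_upwards [isOpen_strip.mem_nhds hz] with z hz'
    exact hmeas z hz'.1
  · refine (hint.const_mul C).mono' (hmeas z₀ hz.1) (Eventually.of_forall fun ξ => ?_)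
    obtain ⟨a, b, c⟩ := hnear z₀ (Metric.mem_closedBall_self (by linarith))
    rw [norm_mul, RCLike.norm_conj]
    calc _ ≤ ‖hf ξ‖ * (C * major ξ) :=
          mul_le_mul_of_nonneg_left (hCb z₀ a b c ξ) (norm_nonneg _)
      _ = _ := by ring
  · rw [hF']
    refine (Complex.continuous_conj.comp_aestronglyMeasurable hm.1).mul ?_
    have hd : ∀ ξ, deriv (fun z => riemannZeta (line ξ) / line ξ * invZeta (line ξ + z)) z₀ =
        riemannZeta (line ξ) / line ξ * deriv invZeta (line ξ + z₀) := fun ξ => by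
      rw [deriv_const_mul_field, deriv_comp_const_add]
    simp only [hd]
    exact (continuous_zeta_div.aestronglyMeasurable).mul
      ((measurable_deriv invZeta).comp
        (continuous_line.add continuous_const).measurable).aestronglyMeasurable
  · refine Eventually.of_forall fun ξ z hzb => ?_
    rw [hF', norm_mul, RCLike.norm_conj]
    refine mul_le_mul_of_nonneg_left ?_ (norm_nonneg _)
    have hsub : Metric.closedBall z r ⊆ Metric.closedBall z₀ (2 * r) :=
      Metric.closedBall_subset_closedBall' (by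
        rw [Metric.mem_ball] at hzb; linarith)
    refine norm_deriv_le_of_forall_mem_sphere_norm_le hr0 (DifferentiableOn.diffContOnCl
      fun w hw => (hdiff ξ w ?_).differentiableWithinAt) fun w hw => ?_
    · rw [closure_ball z hr0.ne'] at hw
      linarith [(hnear w (hsub hw)).1]
    · obtain ⟨a, b, c⟩ := hnear w (hsub (Metric.sphere_subset_closedBall hw))
      exact hCb w a b c ξ
  · exact ((hint.const_mul (C / r))).congr (Eventually.of_forall fun ξ => by ring)
  · refine Eventually.of_forall fun ξ z hzb => ?_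
    rw [hF']
    exact ((hdiff ξ z (by linarith [(hnear z (hball hzb)).1])).hasDerivAt).const_mul _

/-- The generators. -/
def gen (n : ℕ) : Lp ℂ 2 (volume : Measure ℝ) :=
  trans (frk (1 / ((n : ℝ) + 1))) (tame_frk (by positivity)
    ((div_le_one (by positivity)).2 (le_add_of_nonneg_left (Nat.cast_nonneg n))))

theorem phi_eq_zero_right (h : RiemannHypothesis) (hL : Lp ℂ 2 (volume : Measure ℝ))
    (horth : ∀ n, ⟪hL, gen n⟫_ℂ = 0) {z : ℂ} (hz : 1 / 2 < z.re) :
    phi hL z = 0 := by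
  obtain ⟨Z, hZ, hZb⟩ := exists_zeta_line h
  obtain ⟨a, ha⟩ : ∃ a : ℕ → ℝ → ℂ, a = fun n ξ => conj ((hL : ℝ → ℂ) ξ) *
      (riemannZeta (line ξ) / line ξ *
        ((μ (n + 1) : ℂ) / ((n + 1 : ℕ) : ℂ) ^ (line ξ + z))) := ⟨_, rfl⟩
  have hint : Integrable fun ξ => ‖(hL : ℝ → ℂ) ξ‖ * major ξ :=
    (Lp.memLp hL).norm.integrable_mul memLp_major
  have hnorm : ∀ n ξ, ‖a n ξ‖ ≤
      1 / ((n : ℝ) + 1) ^ (z.re + 1 / 2) * (2 * Z) * (‖(hL : ℝ → ℂ) ξ‖ * major ξ) := by
    intro n ξ
    have h1 : ‖riemannZeta (line ξ) / line ξ‖ ≤ 2 * Z * major ξ := by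
      rw [norm_div]
      refine (div_le_div_of_nonneg_right (hZb ξ) (norm_nonneg _)).trans ?_
      rw [mul_div_assoc]
      refine (mul_le_mul_of_nonneg_left (rpow_div_line_le (by norm_num) ξ) hZ).trans (le_of_eq ?_)
      ring
    have h2 : ‖(μ (n + 1) : ℂ) / ((n + 1 : ℕ) : ℂ) ^ (line ξ + z)‖ ≤
        1 / ((n : ℝ) + 1) ^ (z.re + 1 / 2) := by
      rw [norm_div, Complex.norm_natCast_cpow_of_pos n.succ_pos, add_re, line_re,
        add_comm (1 / 2 : ℝ), Complex.norm_intCast, Nat.cast_succ]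
      gcongr
      exact_mod_cast ArithmeticFunction.abs_moebius_le_one
    rw [ha]
    simp only [norm_mul, RCLike.norm_conj]
    calc ‖(hL : ℝ → ℂ) ξ‖ * (‖riemannZeta (line ξ) / line ξ‖ *
          ‖(μ (n + 1) : ℂ) / ((n + 1 : ℕ) : ℂ) ^ (line ξ + z)‖)
        ≤ ‖(hL : ℝ → ℂ) ξ‖ * (2 * Z * major ξ * (1 / ((n : ℝ) + 1) ^ (z.re + 1 / 2))) := by
          have := (major_pos ξ).le
          gcongr
      _ = _ := by ring
  have hmeas : ∀ n, AEStronglyMeasurable (a n) volume := fun n => by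
    rw [ha]
    refine (Complex.continuous_conj.comp_aestronglyMeasurable (Lp.aestronglyMeasurable hL)).mul
      ((continuous_zeta_div.mul (continuous_const.div ?_ fun ξ => ?_)).aestronglyMeasurable)
    · exact (continuous_line.add continuous_const).const_cpow
        (Or.inl (Nat.cast_ne_zero.2 n.succ_ne_zero))
    · exact cpow_ne_zero_iff.2 (Or.inl (Nat.cast_ne_zero.2 n.succ_ne_zero))
  have hai : ∀ n, Integrable (a n) := fun n =>
    (hint.const_mul _).mono' (hmeas n) (Eventually.of_forall (hnorm n))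
  have hsum : Summable fun n => ∫ ξ, ‖a n ξ‖ := by
    have hp : Summable fun n : ℕ => 1 / ((n : ℝ) + 1) ^ (z.re + 1 / 2) := by
      have := (summable_nat_add_iff (f := fun n : ℕ => 1 / (n : ℝ) ^ (z.re + 1 / 2)) 1).2
        (Real.summable_one_div_nat_rpow.2 (by linarith))
      simpa using this
    refine Summable.of_nonneg_of_le (fun n => integral_nonneg fun ξ => norm_nonneg _) (fun n => ?_)
      ((hp.mul_right (2 * Z)).mul_right (∫ ξ, ‖(hL : ℝ → ℂ) ξ‖ * major ξ))
    rw [← integral_const_mul]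
    exact integral_mono (hai n).norm (hint.const_mul _) (hnorm n)
  have hzero : ∀ n, ∫ ξ, a n ξ = 0 := by
    intro n
    have hg : ∀ᵐ ξ : ℝ, a n ξ = -((μ (n + 1) : ℂ) / ((n + 1 : ℕ) : ℂ) ^ z) *
        ⟪(hL : ℝ → ℂ) ξ, (gen n : ℝ → ℂ) ξ⟫_ℂ := by
      filter_upwards [trans_frk (θ := 1 / ((n : ℝ) + 1)) (by positivity)
        ((div_le_one (by positivity)).2 (le_add_of_nonneg_left (Nat.cast_nonneg n)))] with ξ hξ
      have hne : ((n + 1 : ℕ) : ℂ) ≠ 0 := Nat.cast_ne_zero.2 n.succ_ne_zero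
      rw [RCLike.inner_apply, gen, hξ, ha]
      simp only
      rw [show ((1 / ((n : ℝ) + 1) : ℝ) : ℂ) = (((n + 1 : ℕ) : ℂ))⁻¹ by push_cast; rw [one_div],
        Complex.inv_cpow _ _ (by rw [natCast_arg]; exact Real.pi_ne_zero.symm),
        cpow_add _ _ hne]
      field_simp
    rw [integral_congr_ae hg, integral_const_mul, ← L2.inner_def, horth n, mul_zero]
  have htot := hasSum_integral_of_summable_integral_norm hai hsum
  simp only [hzero] at htot
  have hpt : ∀ ξ, HasSum (fun n => a n ξ)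
      (conj ((hL : ℝ → ℂ) ξ) * (riemannZeta (line ξ) / line ξ * invZeta (line ξ + z))) := by
    intro ξ
    rw [ha]
    refine (HasSum.mul_left _ ?_).mul_left _
    obtain ⟨hs, hv⟩ := FA.VonKoch.moebius_series (s := line ξ + z)
      (by rw [add_re, line_re]; linarith)
    have h3 : HasSum (LSeries.term (fun n => ((μ n : ℤ) : ℂ)) (line ξ + z))
        (invZeta (line ξ + z)) := hv ▸ hs.hasSum
    have h4 := (hasSum_nat_add_iff' 1).2 h3
    rw [Finset.sum_range_one, LSeries.term_zero, sub_zero] at h4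
    refine h4.congr_fun fun n => ?_
    rw [LSeries.term_of_ne_zero n.succ_ne_zero]
  rw [phi, integral_congr_ae (Eventually.of_forall fun ξ => (hpt ξ).tsum_eq.symm)]
  exact (HasSum.unique hasSum_zero htot).symm

theorem ae_zeta_ne_zero : ∀ᵐ ξ : ℝ, riemannZeta₁ (line ξ) ≠ 0 := by
  have hc : ({ρ : ℂ | FA.RiemannMangoldt.xiFn ρ = 0}).Countable := by
    refine (countable_iUnion fun k : ℕ =>
      (FA.ExplicitFormula.finite_bounded_zeros k).countable).mono fun ρ hρ => ?_
    exact mem_iUnion.2 ⟨⌈|ρ.im|⌉₊, hρ, Nat.le_ceil _⟩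
  have hinj : Function.Injective line := fun a b hab => by
    have := congrArg Complex.im hab
    rw [line_im, line_im] at this
    exact mul_left_cancel₀ (by positivity) this
  refine ((hc.preimage hinj).ae_notMem volume).mono fun ξ hξ h0 => hξ ?_
  show FA.RiemannMangoldt.xiFn (line ξ) = 0
  rw [FA.RiemannMangoldt.xiFn_eq (by rw [line_re]; norm_num), h0, mul_zero, zero_div]

theorem inner_chi_eq_zero (h : RiemannHypothesis) (hL : Lp ℂ 2 (volume : Measure ℝ))
    (horth : ∀ n, ⟪hL, gen n⟫_ℂ = 0) : ⟪hL, trans chi tame_chi⟫_ℂ = 0 := by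
  have hphi : EqOn (phi hL) 0 strip := by
    refine AnalyticOnNhd.eqOn_of_preconnected_of_eventuallyEq
      (DifferentiableOn.analyticOnNhd (fun z hz =>
        (differentiableAt_phi h (Lp.memLp hL) hz).differentiableWithinAt) isOpen_strip)
      analyticOnNhd_const
      ((convex_halfSpace_re_gt 0).inter (convex_halfSpace_re_lt 1)).isPreconnected
      (z₀ := 3 / 4) ⟨by norm_num, by norm_num⟩ ?_
    filter_upwards [(isOpen_lt continuous_const Complex.continuous_re).mem_nhds
      (show (1 / 2 : ℝ) < (3 / 4 : ℂ).re by norm_num)] with z h1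
    exact phi_eq_zero_right h hL horth h1
  obtain ⟨e, he⟩ : ∃ e : ℕ → ℝ, e = fun k : ℕ => 1 / ((k : ℝ) + 16) := ⟨_, rfl⟩
  have he0 : ∀ k, 0 < e k ∧ e k ≤ 1 / 16 := fun k => by
    rw [he]
    exact ⟨by positivity, one_div_le_one_div_of_le (by norm_num)
      (le_add_of_nonneg_left (Nat.cast_nonneg k))⟩
  have helim : Tendsto e atTop (𝓝 0) := by
    rw [he]
    simp only [one_div]
    exact tendsto_inv_atTop_zero.comp
      (tendsto_atTop_add_const_right _ _ tendsto_natCast_atTop_atTop)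
  have hlim : Tendsto (fun k => phi hL (e k : ℂ)) atTop
      (𝓝 (∫ ξ, conj ((hL : ℝ → ℂ) ξ) * (1 / line ξ))) := by
    refine tendsto_integral_of_dominated_convergence
      (fun ξ => ‖(hL : ℝ → ℂ) ξ‖ * (Real.exp 1 * 101 * 2 * major ξ)) (fun k => ?_) ?_ ?_ ?_
    · exact (Complex.continuous_conj.comp_aestronglyMeasurable (Lp.aestronglyMeasurable hL)).mul
        ((continuous_zeta_div.mul (continuous_invZeta_line h (by simpa using (he0 k).1))
          ).aestronglyMeasurable)
    · exact (((Lp.memLp hL).norm.integrable_mul memLp_major).const_mul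
        (Real.exp 1 * 101 * 2)).congr (Eventually.of_forall fun ξ => by
          simp only [Pi.mul_apply]; ring)
    · intro k
      refine Eventually.of_forall fun ξ => ?_
      rw [norm_mul, RCLike.norm_conj]
      refine mul_le_mul_of_nonneg_left ?_ (norm_nonneg _)
      have hre : (line ξ + (e k : ℂ)).re = 1 / 2 + e k := by simp [line_re]
      have hne : line ξ + (e k : ℂ) ≠ 1 := fun h' => by
        rw [h', one_re] at hre; linarith [(he0 k).2]
      have hz := zeta_ne_zero h (by rw [hre]; linarith [(he0 k).1]) hne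
      have hp : line ξ + (e k : ℂ) = ((1 / 2 + e k : ℝ) : ℂ) + ((2 * π * ξ : ℝ) : ℂ) * I := by
        rw [line]; push_cast; ring
      have hr := zeta_half_le h (2 * π * ξ) (he0 k).1.le ((he0 k).2.trans (by norm_num))
      rw [← hp] at hr
      rw [FA.VonKoch.invZeta_eq hne, norm_mul, norm_div, norm_inv]
      calc ‖riemannZeta (line ξ)‖ / ‖line ξ‖ * ‖riemannZeta (line ξ + (e k : ℂ))‖⁻¹
          ≤ Real.exp (e k * (12 + 2 * Real.log (|2 * π * ξ| + 100))) / ‖line ξ‖ := by
            have := norm_pos_iff.2 hz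
            rw [div_mul_eq_mul_div, ← div_eq_mul_inv]
            refine div_le_div_of_nonneg_right ((div_le_iff₀ this).2 ?_) (norm_nonneg _)
            exact hr
        _ ≤ Real.exp 1 * 101 * (1 + (2 * π * ξ) ^ 2) ^ (1 / 16 : ℝ) / ‖line ξ‖ := by
            gcongr
            exact exp_mul_log_le _ (he0 k).2
        _ ≤ _ := by
            rw [mul_div_assoc]
            refine (mul_le_mul_of_nonneg_left (rpow_div_line_le (by norm_num) ξ)
              (by positivity)).trans (le_of_eq ?_)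
            ring
    · filter_upwards [ae_zeta_ne_zero] with ξ hξ
      have hz : riemannZeta (line ξ) ≠ 0 := by
        rw [riemannZeta_eq_inv_sub_mul (line_ne_one ξ)]
        exact mul_ne_zero (inv_ne_zero (sub_ne_zero.2 (line_ne_one ξ))) hξ
      have hc : Tendsto (fun k => invZeta (line ξ + (e k : ℂ))) atTop
          (𝓝 (invZeta (line ξ))) := by
        refine (FA.VonKoch.differentiableAt_invZeta hξ).continuousAt.tendsto.comp ?_
        simpa using ((Complex.continuous_ofReal.tendsto 0).comp helim).const_add (line ξ)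
      have h2 := ((hc.const_mul (riemannZeta (line ξ) / line ξ)).const_mul
        (conj ((hL : ℝ → ℂ) ξ)))
      rw [FA.VonKoch.invZeta_eq (line_ne_one ξ), div_mul_eq_mul_div, mul_inv_cancel₀ hz] at h2
      exact h2
  have hzero : ∀ k, phi hL (e k : ℂ) = 0 := fun k =>
    hphi ⟨by simpa using (he0 k).1, by rw [ofReal_re]; linarith [(he0 k).2]⟩
  simp only [hzero] at hlim
  rw [L2.inner_def, tendsto_nhds_unique tendsto_const_nhds hlim]
  refine integral_congr_ae ?_
  filter_upwards [trans_chi] with ξ hξ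
  rw [RCLike.inner_apply, hξ, mul_comm]

/-- **The hard direction.** -/
theorem approx_of_riemannHypothesis (h : RiemannHypothesis) {η : ℝ} (hη : 0 < η) :
    ∃ (N : ℕ) (c : ℕ → ℝ),
      ∫ x in Ioi (0 : ℝ), err (Finset.range N) (fun n => 1 / ((n : ℝ) + 1)) c x ^ 2 < η := by
  have hmem : trans chi tame_chi ∈ (Submodule.span ℂ (Set.range gen)).topologicalClosure := by
    rw [← Submodule.orthogonal_orthogonal_eq_closure, Submodule.mem_orthogonal]
    intro hL hhL
    refine inner_chi_eq_zero h hL fun n => ?_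
    rw [Submodule.mem_orthogonal] at hhL
    exact inner_eq_zero_symm.1 (hhL _ (Submodule.subset_span ⟨n, rfl⟩))
  rw [← SetLike.mem_coe, Submodule.topologicalClosure_coe, Metric.mem_closure_iff] at hmem
  obtain ⟨v, hv, hdist⟩ := hmem (√η) (Real.sqrt_pos.2 hη)
  obtain ⟨f, rfl⟩ := Finsupp.mem_span_range_iff_exists_finsupp.1 hv
  obtain ⟨N, hN⟩ : ∃ N, f.support ⊆ Finset.range N :=
    ⟨_, Finset.subset_range_sup_succ f.support⟩
  refine ⟨N, fun n => (f n).re, ?_⟩
  refine (integral_err_sq_le (Finset.range N) _ (fun n => ⟨by positivity,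
    (div_le_one (by positivity)).2 (le_add_of_nonneg_left (Nat.cast_nonneg n))⟩) f).trans_lt ?_
  have hs : f.sum (fun i a => a • gen i) = ∑ i ∈ Finset.range N, f i • gen i :=
    Finsupp.sum_of_support_subset f hN _ fun i _ => zero_smul ℂ _
  rw [hs, dist_eq_norm] at hdist
  calc _ < √η ^ 2 := pow_lt_pow_left₀ hdist (norm_nonneg _) two_ne_zero
    _ = η := Real.sq_sqrt hη.le

end FA.NymanBeurling

end
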