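import Fermat.Agent.LiCriterion.Partial
import Fermat.Agent.VonKoch.Bounds

/-!
# `ζ s / ζ (s + ε)` on the critical line, under the Riemann hypothesis

All terms of the partial fractions of `re ξ'/ξ` are nonnegative to the right of the line, so
`exp (2 L σ) ‖ζ (σ + i t)‖²` increases with `σ`, `L = 12 + 2 log (|t| + 100)`.
-/

set_option autoImplicit false

noncomputable section

open Complex Set
open FA.RiemannMangoldt FA.ExplicitFormula

namespace FA.NymanBeurling

theorem zeros_on_line (h : RiemannHypothesis) {ρ : ℂ} (hρ : xiFn ρ = 0) : ρ.re = 1 / 2 := by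
  obtain ⟨h0, h1⟩ := xiFn_zero_strip hρ
  have hne : ρ ≠ 1 := fun h' => by rw [h'] at h1; simp at h1
  refine h ρ ((xiFn_eq_zero_iff h0 hne).1 hρ) ?_ hne
  rintro ⟨n, rfl⟩
  simp at h0
  linarith [(Nat.cast_nonneg n : (0 : ℝ) ≤ n)]

theorem zeta₁_ne_zero (h : RiemannHypothesis) {s : ℂ} (hs : 1 / 2 < s.re) :
    riemannZeta₁ s ≠ 0 := by
  intro h0
  have hx : xiFn s = 0 := by rw [xiFn_eq (by linarith), h0, mul_zero, zero_div]
  linarith [zeros_on_line h hx]

theorem zeta_ne_zero (h : RiemannHypothesis) {s : ℂ} (hs : 1 / 2 < s.re) (hs1 : s ≠ 1) :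
    riemannZeta s ≠ 0 := by
  rw [riemannZeta_eq_inv_sub_mul hs1]
  exact mul_ne_zero (inv_ne_zero (sub_ne_zero.2 hs1)) (zeta₁_ne_zero h hs)

theorem re_xiLogDeriv_nonneg (h : RiemannHypothesis) {s : ℂ} (hs : 1 / 2 < s.re) :
    0 ≤ (xiLogDeriv s).re := by
  have hx : xiFn s ≠ 0 := fun h0 => by linarith [zeros_on_line h h0]
  refine (Complex.hasSum_re (FA.LiCriterion.hasSum_pairTerm hx)).nonneg fun ρ => ?_
  rw [FA.LiCriterion.pairTerm]
  by_cases hρ : xiFn ρ = 0
  · have hre := zeros_on_line h hρ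
    rw [Complex.div_ofNat_re, ← Complex.ofReal_natCast, Complex.re_ofReal_mul, Complex.add_re,
      Complex.inv_re, Complex.inv_re]
    simp only [Complex.sub_re, Complex.add_re, Complex.one_re, hre]
    have : 0 ≤ s.re - 1 / 2 := by linarith
    have : 0 ≤ s.re - 1 + 1 / 2 := by linarith
    refine div_nonneg (mul_nonneg (Nat.cast_nonneg _) (add_nonneg (div_nonneg ?_
      (normSq_nonneg _)) (div_nonneg ?_ (normSq_nonneg _)))) zero_le_two <;> linarith
  · simp [zeroWeight_eq_zero hρ]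

/-- **The ratio bound.** -/
theorem zeta_half_le (h : RiemannHypothesis) (t : ℝ) {ε : ℝ} (h0 : 0 ≤ ε) (h1 : ε ≤ 1 / 4) :
    ‖riemannZeta (1 / 2 + t * I)‖ ≤
      Real.exp (ε * (12 + 2 * Real.log (|t| + 100))) *
        ‖riemannZeta ((1 / 2 + ε : ℝ) + t * I)‖ := by
  obtain ⟨L, hL⟩ : ∃ L, L = 12 + 2 * Real.log (|t| + 100) := ⟨_, rfl⟩
  rw [← hL]
  obtain ⟨p, hp⟩ : ∃ p : ℝ → ℂ, p = fun σ : ℝ => (σ : ℂ) + t * I := ⟨_, rfl⟩
  have hre : ∀ σ, (p σ).re = σ := fun σ => by simp [hp]
  have him : ∀ σ, (p σ).im = t := fun σ => by simp [hp]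
  have hne : ∀ σ, σ < 1 → p σ ≠ 1 := fun σ hσ h' => by
    have := congrArg Complex.re h'
    rw [hre, one_re] at this; linarith
  have hp' : ∀ σ, HasDerivAt p 1 σ := fun σ => by
    rw [hp]
    exact (hasDerivAt_id σ).ofReal_comp.add_const _
  obtain ⟨g, hg⟩ : ∃ g : ℝ → ℝ,
      g = fun σ => Real.exp (2 * L * σ) * ‖riemannZeta (p σ)‖ ^ 2 := ⟨_, rfl⟩
  have hd : ∀ σ ∈ Ioo (1 / 2 : ℝ) (1 / 2 + ε), ∃ d, HasDerivAt g d σ ∧ 0 ≤ d := by
    intro σ hσ
    have hσ1 : σ < 1 := by linarith [hσ.2]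
    have hz : riemannZeta (p σ) ≠ 0 :=
      zeta_ne_zero h (by rw [hre]; exact hσ.1) (hne σ hσ1)
    have hc : HasDerivAt (fun σ => riemannZeta (p σ)) (deriv riemannZeta (p σ)) σ := by
      simpa [Function.comp_def] using
        (differentiableAt_riemannZeta (hne σ hσ1)).hasDerivAt.comp σ (hp' σ)
    have hn := hc.norm_sq
    have he : HasDerivAt (fun σ => Real.exp (2 * L * σ)) (Real.exp (2 * L * σ) * (2 * L)) σ := by
      simpa using ((hasDerivAt_id σ).const_mul (2 * L)).exp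
    refine ⟨_, by rw [hg]; exact he.mul hn, ?_⟩
    have hq : inner ℝ (riemannZeta (p σ)) (deriv riemannZeta (p σ)) =
        ‖riemannZeta (p σ)‖ ^ 2 * (deriv riemannZeta (p σ) / riemannZeta (p σ)).re := by
      rw [Complex.inner, Complex.sq_norm, div_re]
      simp only [mul_re, conj_re, conj_im]
      have := (Complex.normSq_pos.2 hz).ne'
      field_simp
      ring
    rw [hq]
    have hq2 := xiLogDeriv_eq_reg (by rw [hre]; linarith [hσ.1]) (hne σ hσ1) hz
    have hpos := re_xiLogDeriv_nonneg h (s := p σ) (by rw [hre]; exact hσ.1)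
    have hb1 := norm_inv_sub_one_le (s := p σ) (by norm_num : (0 : ℝ) < 1 / 4)
      (Or.inr (by rw [hre, abs_of_neg (by linarith)]; linarith [hσ.2]))
    have hb2 := norm_gammaReg_le (s := p σ) (by rw [hre]; linarith [hσ.1])
      (by rw [hre]; linarith)
    rw [him] at hb2
    have hlow : 0 ≤ L + (deriv riemannZeta (p σ) / riemannZeta (p σ)).re := by
      have e := congrArg Complex.re hq2
      rw [add_re, add_re] at e
      have := (Complex.re_le_norm _).trans hb1
      have := (Complex.re_le_norm _).trans hb2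
      norm_num at *
      linarith
    calc (0 : ℝ) ≤ Real.exp (2 * L * σ) * ‖riemannZeta (p σ)‖ ^ 2 *
          (2 * (L + (deriv riemannZeta (p σ) / riemannZeta (p σ)).re)) := by positivity
      _ = _ := by ring
  have hcont : ContinuousOn g (Icc (1 / 2) (1 / 2 + ε)) := fun σ hσ => by
    have hc : ContinuousAt (fun σ => riemannZeta (p σ)) σ :=
      ((differentiableAt_riemannZeta (hne σ (by linarith [hσ.2]))).continuousAt).comp
        (hp' σ).continuousAt
    rw [hg]
    exact ((Real.continuous_exp.comp (continuous_const.mul continuous_id)).continuousAt.mul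
      (hc.norm.pow 2)).continuousWithinAt
  have hmono : MonotoneOn g (Icc (1 / 2) (1 / 2 + ε)) := by
    refine monotoneOn_of_deriv_nonneg (convex_Icc _ _) hcont ?_ ?_ <;> rw [interior_Icc]
    · exact fun σ hσ => (hd σ hσ).choose_spec.1.differentiableAt.differentiableWithinAt
    · exact fun σ hσ => by
        rw [(hd σ hσ).choose_spec.1.deriv]; exact (hd σ hσ).choose_spec.2
  have hm := hmono (left_mem_Icc.2 (by linarith)) (right_mem_Icc.2 (by linarith))
    (by linarith : (1 / 2 : ℝ) ≤ 1 / 2 + ε)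
  simp only [hg, hp] at hm
  rw [show 2 * L * (1 / 2 + ε) = 2 * L * (1 / 2) + 2 * (ε * L) by ring, Real.exp_add,
    show Real.exp (2 * (ε * L)) = Real.exp (ε * L) ^ 2 by rw [← Real.exp_nat_mul]; norm_num,
    mul_assoc (Real.exp (2 * L * (1 / 2))), ← mul_pow] at hm
  have hm2 := le_of_mul_le_mul_left hm (Real.exp_pos _)
  have h3 := pow_le_pow_iff_left₀ (norm_nonneg _) (by positivity) two_ne_zero |>.1 hm2
  rwa [show ((1 / 2 : ℝ) : ℂ) = 1 / 2 by push_cast; rfl] at h3

end FA.NymanBeurling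

end
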