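import Fermat.Agent.NymanBeurling.Kernel
import Fermat.Agent.OneSided.Main

/-!
# A good approximation forbids zeros off the line

If `ζ ρ = 0`, then `∫_{0<x≤1} x ^ (ρ - 1) (1 - ∑ c {θ / x}) = 1 / ρ + a / (1 - ρ)`, `a = ∑ c θ`,
which for real `a` and nonreal `ρ` stays away from `0`.
-/

set_option autoImplicit false

noncomputable section

open MeasureTheory Filter Set Complex

namespace FA.NymanBeurling

theorem integral_Ioc_frk {θ : ℝ} (hθ : 0 < θ) (hθ1 : θ ≤ 1) {s : ℂ} (h0 : 0 < s.re)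
    (h1 : s.re < 1) (hz : riemannZeta s = 0) :
    IntegrableOn (fun t : ℝ => (t : ℂ) ^ (s - 1) • (frk θ t : ℂ)) (Ioc 0 1) ∧
      ∫ t in Ioc (0 : ℝ) 1, (t : ℂ) ^ (s - 1) • (frk θ t : ℂ) = -((θ : ℂ) / (1 - s)) := by
  have hc := mellinConvergent_frk hθ.le h0 h1
  have hl := hc.mono_set (Ioc_subset_Ioi_self : Ioc (0 : ℝ) 1 ⊆ Ioi 0)
  refine ⟨hl, ?_⟩
  have hr := hc.mono_set (Ioi_subset_Ioi (zero_le_one (α := ℝ)))
  have h := mellin_frk hθ h0 h1
  rw [mellin, ← Ioc_union_Ioi_eq_Ioi (zero_le_one (α := ℝ)),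
    setIntegral_union Ioc_disjoint_Ioi_same measurableSet_Ioi hl hr, hz, mul_zero, zero_div] at h
  have h2 : ∫ t in Ioi (1 : ℝ), (t : ℂ) ^ (s - 1) • (frk θ t : ℂ) = (θ : ℂ) / (1 - s) := by
    rw [setIntegral_congr_fun measurableSet_Ioi (g := fun t : ℝ => (θ : ℂ) * (t : ℂ) ^ (s - 2))
      fun t ht => ?_, integral_const_mul, integral_Ioi_cpow_of_lt (by simp; linarith) one_pos]
    · rw [ofReal_one, one_cpow, show s - 2 + 1 = -(1 - s) by ring, neg_div_neg_eq, mul_one_div]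
    · have ht1 : (1 : ℝ) < t := ht
      have ht0 : (t : ℂ) ≠ 0 := ofReal_ne_zero.2 (by linarith)
      rw [smul_eq_mul, frk_of_lt hθ.le (by linarith), ofReal_div,
        show s - 1 = (s - 2) + 1 by ring, cpow_add _ _ ht0, cpow_one]
      field_simp
  rw [h2] at h
  exact eq_neg_of_add_eq_zero_left h

/-- The pairing with `x ^ (ρ - 1)`. -/
theorem pairing {ι : Type*} {S : Finset ι} {θ c : ι → ℝ} (hθ : ∀ i ∈ S, 0 < θ i ∧ θ i ≤ 1) {s : ℂ}
    (h0 : 0 < s.re) (h1 : s.re < 1) (hz : riemannZeta s = 0) :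
    ∫ t in Ioc (0 : ℝ) 1, (t : ℂ) ^ (s - 1) • (err S θ c t : ℂ) =
      1 / s + (∑ i ∈ S, c i * θ i : ℝ) / (1 - s) := by
  have hone := hasMellin_one_Ioc h0
  have hi1 : IntegrableOn (fun t : ℝ => (t : ℂ) ^ (s - 1) • (chi t : ℂ)) (Ioc 0 1) := by
    refine (hone.1.mono_set Ioc_subset_Ioi_self).congr_fun (fun t ht => ?_) measurableSet_Ioc
    simp [chi, ht]
  have hv : ∫ t in Ioc (0 : ℝ) 1, (t : ℂ) ^ (s - 1) • (chi t : ℂ) = 1 / s := by
    refine (setIntegral_congr_fun measurableSet_Ioc (g := fun t : ℝ => (t : ℂ) ^ (s - 1))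
      fun t ht => by simp [chi, ht]).trans ?_
    rw [← intervalIntegral.integral_of_le zero_le_one, integral_cpow (Or.inl (by simp; linarith)),
      sub_add_cancel, ofReal_zero, ofReal_one, one_cpow,
      zero_cpow (fun h => by simp [h] at h0), sub_zero]
  have hi : ∀ i ∈ S, IntegrableOn (fun t : ℝ => (c i : ℂ) * ((t : ℂ) ^ (s - 1) • (frk (θ i) t : ℂ)))
      (Ioc 0 1) := fun i hiS =>
    (integral_Ioc_frk (hθ i hiS).1 (hθ i hiS).2 h0 h1 hz).1.const_mul _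
  rw [setIntegral_congr_fun measurableSet_Ioc (g := fun t : ℝ => (t : ℂ) ^ (s - 1) • (chi t : ℂ) -
      ∑ i ∈ S, (c i : ℂ) * ((t : ℂ) ^ (s - 1) • (frk (θ i) t : ℂ))) fun t _ => ?_,
    integral_sub hi1 (integrable_finsetSum _ hi), integral_finsetSum _ hi, hv,
    Finset.sum_congr rfl fun i hiS => by
      rw [integral_const_mul, (integral_Ioc_frk (hθ i hiS).1 (hθ i hiS).2 h0 h1 hz).2]]
  · push_cast
    rw [Finset.sum_div, sub_eq_add_neg, ← Finset.sum_neg_distrib]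
    congr 1
    refine Finset.sum_congr rfl fun i _ => ?_
    ring
  · simp only [err, smul_eq_mul]
    push_cast
    rw [mul_sub, Finset.mul_sum]
    congr 1
    exact Finset.sum_congr rfl fun i _ => by ring

theorem pairing_lower {s : ℂ} (h0 : 0 < s.re) (h1 : s.re < 1) (a : ℝ) :
    |s.im| / (‖s‖ ^ 2 * ‖1 - s‖) ≤ ‖1 / s + (a : ℂ) / (1 - s)‖ := by
  have hs : s ≠ 0 := fun h => by simp [h] at h0
  have hs1 : 1 - s ≠ 0 := fun h => by
    have := congrArg Complex.re h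
    simp at this; linarith
  rw [show 1 / s + (a : ℂ) / (1 - s) = (1 + ((a - 1 : ℝ) : ℂ) * s) / (s * (1 - s)) by
    push_cast; field_simp; ring, norm_div, norm_mul]
  have key : |s.im| ≤ ‖s‖ * ‖1 + ((a - 1 : ℝ) : ℂ) * s‖ := by
    rw [← RCLike.norm_conj s, ← norm_mul]
    refine le_trans (le_of_eq ?_) (abs_im_le_norm _)
    rw [← abs_neg s.im]
    congr 1
    simp
    ring
  have hn := norm_pos_iff.2 hs
  have hn1 := norm_pos_iff.2 hs1
  rw [div_le_div_iff₀ (by positivity) (by positivity)]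
  nlinarith [mul_le_mul_of_nonneg_right key (mul_pos hn hn1).le]

/-- **The easy direction.** -/
theorem zero_free_of_approx (H : ∀ η : ℝ, 0 < η → ∃ (N : ℕ) (θ c : Fin N → ℝ),
      (∀ i, 0 < θ i ∧ θ i ≤ 1) ∧ ∫ x in Ioc (0 : ℝ) 1, err Finset.univ θ c x ^ 2 < η)
    {s : ℂ} (hs : 1 / 2 < s.re) (hs1 : s.re < 1) : riemannZeta s ≠ 0 := by
  intro hz
  have h0 : 0 < s.re := by linarith
  have him : s.im ≠ 0 := fun h => by
    have he : s = (s.re : ℂ) := Complex.ext rfl (by simp [h])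
    rw [he] at hz
    exact FA.PsiOscillation.riemannZeta₁_real_ne_zero h0 (FA.OneSided.zeta₁_eq_zero_of_zeta
      (fun h' => by have := congrArg Complex.re h'; simp at this; linarith) hz)
  obtain ⟨K, hK⟩ : ∃ K, K = |s.im| / (‖s‖ ^ 2 * ‖1 - s‖) := ⟨_, rfl⟩
  have hKpos : 0 < K := by
    rw [hK]
    refine div_pos (abs_pos.2 him) (mul_pos (pow_pos ?_ 2) ?_)
    · exact norm_pos_iff.2 fun h => by simp [h] at h0
    · exact norm_pos_iff.2 fun h => by have := congrArg Complex.im h; simp at this; exact him this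
  obtain ⟨M, hM⟩ : ∃ M, M = (1 / (2 * s.re - 1) + 1) / 2 := ⟨_, rfl⟩
  have hσ : 0 < 2 * s.re - 1 := by linarith
  have hMpos : 0 < M := hM ▸ by positivity
  obtain ⟨δ, hδ⟩ : ∃ δ, δ = K / (2 * M) := ⟨_, rfl⟩
  have hδ0 : 0 < δ := hδ ▸ by positivity
  obtain ⟨N, θ, c, hθ, herr⟩ := H (δ ^ 2) (pow_pos hδ0 2)
  have hsq : IntegrableOn (fun x => err Finset.univ θ c x ^ 2) (Ioc 0 1) :=
    (integrableOn_err_sq fun i _ => ⟨(hθ i).1.le, (hθ i).2⟩).mono_set Ioc_subset_Ioi_self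
  have hw : IntegrableOn (fun t : ℝ => t ^ (2 * s.re - 2)) (Ioc 0 1) :=
    (intervalIntegrable_iff_integrableOn_Ioc_of_le zero_le_one).1
      (intervalIntegral.intervalIntegrable_rpow' (by linarith))
  have hwv : ∫ t in Ioc (0 : ℝ) 1, t ^ (2 * s.re - 2) = 1 / (2 * s.re - 1) := by
    rw [← intervalIntegral.integral_of_le zero_le_one, integral_rpow (Or.inl (by linarith)),
      Real.one_rpow, Real.zero_rpow (by linarith), sub_zero]
    ring_nf
  have hbound : ‖∫ t in Ioc (0 : ℝ) 1, (t : ℂ) ^ (s - 1) • (err Finset.univ θ c t : ℂ)‖ ≤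
      δ / 2 * (1 / (2 * s.re - 1)) +
        1 / (2 * δ) * ∫ x in Ioc (0 : ℝ) 1, err Finset.univ θ c x ^ 2 := by
    rw [← hwv, ← integral_const_mul, ← integral_const_mul,
      ← integral_add (hw.const_mul _) (hsq.const_mul _)]
    refine norm_integral_le_of_norm_le ((hw.const_mul _).add (hsq.const_mul _)) ?_
    filter_upwards [ae_restrict_mem measurableSet_Ioc] with t ht
    rw [norm_smul, norm_cpow_eq_rpow_re_of_pos ht.1, sub_re, one_re, Complex.norm_real,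
      Real.norm_eq_abs]
    rw [show t ^ (2 * s.re - 2) = (t ^ (s.re - 1)) ^ 2 by
      rw [← Real.rpow_natCast (t ^ (s.re - 1)) 2, ← Real.rpow_mul ht.1.le]; push_cast; ring_nf,
      ← sq_abs (err _ _ _ t)]
    generalize t ^ (s.re - 1) = u
    generalize |err Finset.univ θ c t| = v
    have : 0 ≤ (δ * u - v) ^ 2 := sq_nonneg _
    field_simp
    nlinarith
  rw [pairing (fun i _ => hθ i) h0 hs1 hz] at hbound
  have h2 := (pairing_lower h0 hs1 _).trans hbound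
  rw [← hK] at h2
  have h3 : 1 / (2 * δ) * ∫ x in Ioc (0 : ℝ) 1, err Finset.univ θ c x ^ 2 <
      1 / (2 * δ) * δ ^ 2 := mul_lt_mul_of_pos_left herr (by positivity)
  have h4 : δ / 2 * (1 / (2 * s.re - 1)) + 1 / (2 * δ) * δ ^ 2 = δ * M := by
    rw [hM]; field_simp
  have h5 : δ * M = K / 2 := by rw [hδ]; field_simp
  linarith

end FA.NymanBeurling

end
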