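import Fermat.Agent.CycloGrowth.ZetaStrip
import Mathlib.Analysis.MellinInversion

/-!
# The Mellin transform of `x ↦ {θ / x}`

`∫_{x > 0} x ^ (s - 1) {θ / x} dx = -θ ^ s ζ s / s` for `0 < re s < 1`, and the squares
`(χ - ∑ c {θ / x})²`, `χ` the indicator of `(0, 1]`, are integrable over `x > 0`.
-/

set_option autoImplicit false

noncomputable section

open MeasureTheory Filter Set Asymptotics Complex
open scoped Topology

namespace FA.NymanBeurling

/-- The indicator of `(0, 1]`. -/
def chi : ℝ → ℝ := (Ioc (0 : ℝ) 1).indicator fun _ => 1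

/-- `{θ / x}`. -/
def frk (θ x : ℝ) : ℝ := Int.fract (θ / x)

theorem measurable_frk (θ : ℝ) : Measurable (frk θ) := by
  unfold frk
  fun_prop

theorem measurable_chi : Measurable chi := measurable_const.indicator measurableSet_Ioc

theorem abs_frk_le (θ x : ℝ) : |frk θ x| ≤ 1 := by
  rw [frk, Int.abs_fract]
  exact (Int.fract_lt_one _).le

theorem abs_chi_le (x : ℝ) : |chi x| ≤ 1 := by
  by_cases h : x ∈ Ioc (0 : ℝ) 1 <;> simp [chi, h]

theorem frk_of_lt {θ x : ℝ} (hθ : 0 ≤ θ) (hx : θ < x) : frk θ x = θ / x :=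
  Int.fract_eq_self.2 ⟨div_nonneg hθ (hθ.trans hx.le), (div_lt_one (hθ.trans_lt hx)).2 hx⟩

theorem locallyIntegrableOn_frk (θ : ℝ) :
    LocallyIntegrableOn (fun t => (frk θ t : ℂ)) (Ioi 0) := by
  refine ((locallyIntegrable_const (1 : ℝ)).mono
    (Complex.measurable_ofReal.comp (measurable_frk θ)).aestronglyMeasurable
    (Eventually.of_forall fun t => ?_)).locallyIntegrableOn _
  rw [norm_one, Function.comp_apply, Complex.norm_real]
  exact abs_frk_le θ t

theorem mellinConvergent_frk {θ : ℝ} (hθ : 0 ≤ θ) {s : ℂ} (h0 : 0 < s.re) (h1 : s.re < 1) :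
    MellinConvergent (fun t => (frk θ t : ℂ)) s := by
  refine mellinConvergent_of_isBigO_rpow (a := 1) (b := 0) (locallyIntegrableOn_frk θ) ?_ h1 ?_ h0
  · refine IsBigO.of_bound θ ?_
    filter_upwards [eventually_gt_atTop θ, eventually_gt_atTop 0] with t ht ht0
    rw [Complex.norm_real, frk_of_lt hθ ht, Real.norm_of_nonneg (div_nonneg hθ ht0.le),
      Real.norm_of_nonneg (Real.rpow_nonneg ht0.le _), Real.rpow_neg_one, div_eq_mul_inv]
  · refine IsBigO.of_bound 1 (Eventually.of_forall fun t => ?_)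
    rw [Complex.norm_real, neg_zero, Real.rpow_zero, norm_one, mul_one]
    exact abs_frk_le θ t

theorem mellin_fract {s : ℂ} (h0 : 0 < s.re) (h1 : s.re < 1) :
    mellin (fun t => ((Int.fract t : ℝ) : ℂ)) (-s) = -riemannZeta s / s := by
  have hD := hasMellin_cpow_Ioc 1 (s := -s) (by rw [neg_re, one_re]; linarith)
  have hP : MellinConvergent FA.CycloGrowth.fracPart (-s) := by
    have hi : IntegrableOn (fun t : ℝ => t ^ (-(s.re + 1))) (Ioi 1) :=
      integrableOn_Ioi_rpow_of_lt (by linarith) one_pos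
    refine Integrable.mono' ((integrable_indicator_iff measurableSet_Ioi).2 hi).restrict ?_ ?_
    · exact ((Complex.measurable_ofReal.pow_const _).aestronglyMeasurable.smul
        (FA.CycloGrowth.measurable_frac.indicator measurableSet_Ioi).aestronglyMeasurable)
    · filter_upwards [ae_restrict_mem measurableSet_Ioi] with t ht
      by_cases h : t ∈ Ioi (1 : ℝ)
      · rw [indicator_of_mem h, FA.CycloGrowth.fracPart, indicator_of_mem h, smul_eq_mul, mul_comm,
          show -s - 1 = -(s + 1) by ring]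
        exact FA.CycloGrowth.norm_fracIntegrand_le h
      · rw [indicator_of_notMem h, FA.CycloGrowth.fracPart, indicator_of_notMem h, smul_zero,
          norm_zero]
  have hsum : mellin (fun t => ((Int.fract t : ℝ) : ℂ)) (-s) =
      1 / (-s + 1) + FA.CycloGrowth.fracInt s := by
    rw [← hD.2, ← FA.CycloGrowth.fracInt_eq_mellin, mellin, mellin, mellin,
      ← integral_add hD.1 hP]
    refine integral_congr_ae ?_
    have hne : ∀ᵐ t ∂(volume : Measure ℝ).restrict (Ioi 0), t ≠ 1 := Measure.ae_ne _ 1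
    filter_upwards [ae_restrict_mem measurableSet_Ioi, hne] with t ht hne
    rw [← smul_add]
    congr 1
    rcases lt_or_gt_of_ne hne with hlt | hgt
    · rw [indicator_of_mem (show t ∈ Ioc (0 : ℝ) 1 from ⟨ht, hlt.le⟩), FA.CycloGrowth.fracPart,
        indicator_of_notMem (show t ∉ Ioi (1 : ℝ) from fun h => lt_asymm (Set.mem_Ioi.1 h) hlt),
        add_zero, cpow_one,
        Int.fract_eq_self.2 ⟨(Set.mem_Ioi.1 ht).le, hlt⟩]
    · rw [indicator_of_notMem (show t ∉ Ioc (0 : ℝ) 1 from fun h => not_lt.2 h.2 hgt),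
        FA.CycloGrowth.fracPart,
        indicator_of_mem (Set.mem_Ioi.2 hgt), zero_add, ← Int.self_sub_floor,
        natCast_floor_eq_intCast_floor (zero_le_one.trans hgt.le)]
  have hs0 : s ≠ 0 := fun h => by simp [h] at h0
  have hs1 : s ≠ 1 := fun h => by simp [h] at h1
  have h2 : s - 1 ≠ 0 := sub_ne_zero.2 hs1
  rw [hsum, riemannZeta_eq_inv_sub_mul hs1, FA.CycloGrowth.riemannZeta₁_eq h0,
    show -s + 1 = -(s - 1) by ring]
  field_simp
  ring

theorem mellin_frk {θ : ℝ} (hθ : 0 < θ) {s : ℂ} (h0 : 0 < s.re) (h1 : s.re < 1) :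
    mellin (fun t => (frk θ t : ℂ)) s = -(θ : ℂ) ^ s * riemannZeta s / s := by
  have e : (fun t : ℝ => (frk θ t : ℂ)) =
      fun t => (fun y : ℝ => ((Int.fract y⁻¹ : ℝ) : ℂ)) (θ⁻¹ * t) := by
    funext t
    simp only [frk, mul_inv, inv_inv, div_eq_mul_inv]
  rw [e, mellin_comp_mul_left (fun y : ℝ => ((Int.fract y⁻¹ : ℝ) : ℂ)) s (inv_pos.2 hθ),
    mellin_comp_inv (fun y : ℝ => ((Int.fract y : ℝ) : ℂ)), mellin_fract h0 h1, smul_eq_mul,
    ofReal_inv, inv_cpow _ _ (by rw [arg_ofReal_of_nonneg hθ.le]; exact Real.pi_ne_zero.symm),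
    cpow_neg, inv_inv]
  ring

/-- The error of an approximation to `χ`. -/
def err {ι : Type*} (S : Finset ι) (θ c : ι → ℝ) (x : ℝ) : ℝ :=
  chi x - ∑ i ∈ S, c i * frk (θ i) x

theorem measurable_err {ι : Type*} (S : Finset ι) (θ c : ι → ℝ) : Measurable (err S θ c) :=
  measurable_chi.sub (Finset.measurable_sum _ fun _ _ => (measurable_frk _).const_mul _)

theorem integrableOn_err_sq {ι : Type*} {S : Finset ι} {θ c : ι → ℝ}
    (hθ : ∀ i ∈ S, 0 ≤ θ i ∧ θ i ≤ 1) :
    IntegrableOn (fun x => err S θ c x ^ 2) (Ioi 0) := by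
  obtain ⟨B, hB⟩ : ∃ B, B = 1 + ∑ i ∈ S, |c i| := ⟨_, rfl⟩
  have hS0 : 0 ≤ ∑ i ∈ S, |c i| := Finset.sum_nonneg fun _ _ => abs_nonneg _
  have hmeas : AEStronglyMeasurable (fun x => err S θ c x ^ 2) (volume.restrict (Ioc (0:ℝ) 1)) :=
    ((measurable_err S θ c).pow_const 2).aestronglyMeasurable
  have hle : ∀ x, |err S θ c x| ≤ B := fun x => by
    refine (abs_sub _ _).trans (hB ▸ add_le_add (abs_chi_le x) ?_)
    refine (Finset.abs_sum_le_sum_abs _ _).trans (Finset.sum_le_sum fun i _ => ?_)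
    rw [abs_mul]
    exact mul_le_of_le_one_right (abs_nonneg _) (abs_frk_le _ _)
  rw [← Ioc_union_Ioi_eq_Ioi (zero_le_one (α := ℝ)), integrableOn_union]
  constructor
  · refine Integrable.mono' (integrable_const (B ^ 2)) hmeas (Eventually.of_forall fun x => ?_)
    rw [Real.norm_eq_abs, abs_pow]
    exact pow_le_pow_left₀ (abs_nonneg _) (hle x) 2
  · refine Integrable.mono' ((integrableOn_Ioi_rpow_of_lt (by norm_num : (-2 : ℝ) < -1)
      one_pos).const_mul (B ^ 2)) ((measurable_err S θ c).pow_const 2).aestronglyMeasurable ?_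
    filter_upwards [ae_restrict_mem measurableSet_Ioi] with x hx
    have hx1 : (1 : ℝ) < x := hx
    have hx0 : 0 < x := by linarith
    have h2 : |err S θ c x| ≤ B / x := by
      rw [err, chi, indicator_of_notMem (fun h => not_lt.2 h.2 hx1), zero_sub, abs_neg]
      refine (Finset.abs_sum_le_sum_abs _ _).trans ?_
      refine (Finset.sum_le_sum (g := fun i => |c i| / x) fun i hi => ?_).trans ?_
      · rw [frk_of_lt (hθ i hi).1 ((hθ i hi).2.trans_lt hx1), abs_mul,
          abs_of_nonneg (div_nonneg (hθ i hi).1 hx0.le), div_eq_mul_one_div (|c i|)]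
        refine mul_le_mul_of_nonneg_left ?_ (abs_nonneg _)
        gcongr
        exact (hθ i hi).2
      · rw [← Finset.sum_div, hB]
        gcongr
        linarith
    rw [Real.norm_eq_abs, abs_pow, Real.rpow_neg hx0.le, Real.rpow_two, ← inv_pow, ← mul_pow,
      ← div_eq_mul_inv]
    exact pow_le_pow_left₀ (abs_nonneg _) h2 2

end FA.NymanBeurling

end
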